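import Mathlib
import Fermat.Prelude.Def_ModularCurve_GenusNumerics
import Fermat.Agent.MUL.S20.Cosets.Action

section MergeWrap_S20_Cosets_Count -- from S20/Cosets/Count.lean

set_option autoImplicit false

namespace Fermat.Agent.S20

open scoped MatrixGroups
open CongruenceSubgroup Matrix

instance instFiniteUnimod (N : ℕ) [NeZero N] : Finite (Unimod N) :=
  inferInstanceAs (Finite {v : ZMod N × ZMod N // IsCoprime v.1 v.2})

instance instFiniteP1 (N : ℕ) [NeZero N] : Finite (P1 N) :=
  Finite.of_surjective _ (P1.mk_surjective (N := N))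

/-- `Unimod N ≃ P¹(ℤ/N) × (ℤ/N)ˣ` since the unit action is free. -/
noncomputable def unimodEquivProd (N : ℕ) : P1 N × (ZMod N)ˣ ≃ Unimod N :=
  Equiv.ofBijective (fun pu => pu.2 • (Quotient.out pu.1 : Unimod N)) (by
    constructor
    · rintro ⟨p, u⟩ ⟨p', u'⟩ h
      simp only at h
      have hp : p = p' := by
        have h1 : P1.mk (u • (Quotient.out p : Unimod N)) = P1.mk (u' • (Quotient.out p' : Unimod N)) :=
          congrArg _ h
        have h2 : ∀ (w : (ZMod N)ˣ) (q : P1 N), P1.mk (w • (Quotient.out q : Unimod N)) = q := by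
          intro w q
          have : P1.mk (w • (Quotient.out q : Unimod N)) = P1.mk (Quotient.out q : Unimod N) := by
            rw [P1.mk_eq_mk_iff]
            simp only [Unimod.smul_fst, Unimod.smul_snd]
            ring
          rw [this]
          exact Quotient.out_eq q
        rwa [h2, h2] at h1
      subst hp
      have : (u'⁻¹ * u) • (Quotient.out p : Unimod N) = Quotient.out p := by
        rw [mul_smul, h, inv_smul_smul]
      rw [Unimod.smul_eq_self_iff] at this
      have hu : u = u' := by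
        rw [← mul_one u', ← this, mul_inv_cancel_left]
      rw [hu]
    · intro v
      have h : P1.mk (Quotient.out (P1.mk v) : Unimod N) = P1.mk v := Quotient.out_eq _
      rw [P1.mk_eq_mk_iff, ← Unimod.exists_smul_eq_iff] at h
      obtain ⟨u, hu⟩ := h
      exact ⟨(P1.mk v, u), hu⟩)

theorem card_unimod_eq (N : ℕ) [NeZero N] :
    Nat.card (Unimod N) = Nat.card (P1 N) * N.totient := by
  rw [← Nat.card_congr (unimodEquivProd N), Nat.card_prod, Nat.card_eq_fintype_card (α := (ZMod N)ˣ),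
    ZMod.card_units_eq_totient]

/-- CRT for unimodular pairs. -/
noncomputable def unimodEquivMul {m n : ℕ} (h : m.Coprime n) :
    Unimod (m * n) ≃ Unimod m × Unimod n where
  toFun v :=
    (⟨((ZMod.chineseRemainder h v.1.1).1, (ZMod.chineseRemainder h v.1.2).1),
        v.2.map ((RingHom.fst _ _).comp (ZMod.chineseRemainder h).toRingHom)⟩,
      ⟨((ZMod.chineseRemainder h v.1.1).2, (ZMod.chineseRemainder h v.1.2).2),
        v.2.map ((RingHom.snd _ _).comp (ZMod.chineseRemainder h).toRingHom)⟩)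
  invFun vw :=
    ⟨((ZMod.chineseRemainder h).symm (vw.1.1.1, vw.2.1.1),
        (ZMod.chineseRemainder h).symm (vw.1.1.2, vw.2.1.2)), by
      obtain ⟨x₁, y₁, h₁⟩ := vw.1.2
      obtain ⟨x₂, y₂, h₂⟩ := vw.2.2
      refine ⟨(ZMod.chineseRemainder h).symm (x₁, x₂), (ZMod.chineseRemainder h).symm (y₁, y₂), ?_⟩
      rw [← map_mul, ← map_mul, ← map_add]
      simp only [Prod.mk_mul_mk, Prod.mk_add_mk, h₁, h₂]
      exact map_one _⟩
  left_inv v := by
    apply Unimod.ext <;> simp
  right_inv vw := by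
    apply Prod.ext <;> apply Unimod.ext <;> simp

theorem card_unimod_mul {m n : ℕ} (h : m.Coprime n) :
    Nat.card (Unimod (m * n)) = Nat.card (Unimod m) * Nat.card (Unimod n) := by
  rw [Nat.card_congr (unimodEquivMul h), Nat.card_prod]

end Fermat.Agent.S20

namespace Fermat.Agent.S20

open scoped MatrixGroups
open CongruenceSubgroup Matrix

/-- Units of a monoid as a subtype. -/
noncomputable def unitsEquivSubtypeIsUnit (M : Type*) [Monoid M] : Mˣ ≃ {a : M // IsUnit a} where
  toFun u := ⟨u, u.isUnit⟩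
  invFun a := a.2.unit
  left_inv _ := Units.ext rfl
  right_inv _ := Subtype.ext rfl

theorem card_nonunits_add_totient (N : ℕ) [NeZero N] :
    Nat.card {a : ZMod N // ¬ IsUnit a} + N.totient = N := by
  classical
  have h1 : Nat.card {a : ZMod N // IsUnit a} = N.totient := by
    rw [← Nat.card_congr (unitsEquivSubtypeIsUnit (ZMod N)), Nat.card_eq_fintype_card,
      ZMod.card_units_eq_totient]
  have h2 := Nat.card_congr (Equiv.sumCompl (fun a : ZMod N => IsUnit a))
  rw [Nat.card_sum, h1, Nat.card_zmod] at h2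
  omega

theorem not_isUnit_iff_castHom_eq_zero {p e : ℕ} (hp : p.Prime) (he : 0 < e)
    (a : ZMod (p ^ e)) :
    ¬ IsUnit a ↔ ZMod.castHom (dvd_pow_self p he.ne') (ZMod p) a = 0 := by
  have : NeZero (p ^ e) := ⟨pow_ne_zero _ hp.ne_zero⟩
  have ha : ((a.val : ℕ) : ZMod (p ^ e)) = a := ZMod.natCast_zmod_val a
  have h1 : IsUnit a ↔ ¬ p ∣ a.val := by
    conv_lhs => rw [← ha]
    rw [ZMod.isUnit_iff_coprime, Nat.coprime_pow_right_iff he, Nat.coprime_comm,
      hp.coprime_iff_not_dvd]
  have h2 : ZMod.castHom (dvd_pow_self p he.ne') (ZMod p) a = 0 ↔ p ∣ a.val := by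
    conv_lhs => rw [← ha]
    rw [map_natCast, ZMod.natCast_eq_zero_iff]
  rw [h1, h2, not_not]

theorem isCoprime_iff_of_prime_pow {p e : ℕ} (hp : p.Prime) (he : 0 < e) (a c : ZMod (p ^ e)) :
    IsCoprime a c ↔ IsUnit a ∨ IsUnit c := by
  constructor
  · rintro ⟨x, y, hxy⟩
    by_contra hcon
    rw [not_or, not_isUnit_iff_castHom_eq_zero hp he, not_isUnit_iff_castHom_eq_zero hp he] at hcon
    have h1 := congrArg (ZMod.castHom (dvd_pow_self p he.ne') (ZMod p)) hxy
    rw [map_add, map_mul, map_mul, hcon.1, hcon.2, mul_zero, mul_zero, add_zero, map_one] at h1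
    have : Fact p.Prime := ⟨hp⟩
    exact zero_ne_one h1
  · rintro (h | h)
    · obtain ⟨u, rfl⟩ := h
      exact ⟨((u⁻¹ : (ZMod (p ^ e))ˣ) : ZMod (p ^ e)), 0, by simp⟩
    · obtain ⟨u, rfl⟩ := h
      exact ⟨0, ((u⁻¹ : (ZMod (p ^ e))ˣ) : ZMod (p ^ e)), by simp⟩

theorem card_unimod_prime_pow {p k : ℕ} (hp : p.Prime) :
    Nat.card (Unimod (p ^ (k + 1))) + (p ^ k) ^ 2 = (p ^ (k + 1)) ^ 2 := by
  classical
  have : NeZero (p ^ (k + 1)) := ⟨pow_ne_zero _ hp.ne_zero⟩
  set N := p ^ (k + 1) with hN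
  -- non-units
  have hnu : Nat.card {a : ZMod N // ¬ IsUnit a} = p ^ k := by
    have h := card_nonunits_add_totient N
    rw [hN, Nat.totient_prime_pow hp (Nat.succ_pos k), Nat.succ_sub_one] at h
    rw [hN]
    have hp1 : 1 ≤ p := hp.one_lt.le
    have : p ^ (k + 1) = p ^ k + p ^ k * (p - 1) := by
      rw [pow_succ]
      obtain ⟨q, rfl⟩ : ∃ q, p = q + 1 := ⟨p - 1, by omega⟩
      simp only [Nat.add_sub_cancel]
      ring
    omega
  -- complement of unimodular pairs
  have hcompl : Nat.card {v : ZMod N × ZMod N // ¬ IsCoprime v.1 v.2} = (p ^ k) ^ 2 := by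
    have e : {v : ZMod N × ZMod N // ¬ IsCoprime v.1 v.2} ≃
        {a : ZMod N // ¬ IsUnit a} × {a : ZMod N // ¬ IsUnit a} :=
      { toFun := fun v => (⟨v.1.1, fun h => v.2
            ((isCoprime_iff_of_prime_pow hp (Nat.succ_pos k) _ _).mpr (Or.inl h))⟩,
          ⟨v.1.2, fun h => v.2
            ((isCoprime_iff_of_prime_pow hp (Nat.succ_pos k) _ _).mpr (Or.inr h))⟩)
        invFun := fun ac => ⟨(ac.1.1, ac.2.1), fun h => by
          rcases (isCoprime_iff_of_prime_pow hp (Nat.succ_pos k) _ _).mp h with h | h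
          · exact ac.1.2 h
          · exact ac.2.2 h⟩
        left_inv := fun v => rfl
        right_inv := fun ac => rfl }
    rw [Nat.card_congr e, Nat.card_prod, hnu, sq]
  have h2 := Nat.card_congr (Equiv.sumCompl (fun v : ZMod N × ZMod N => IsCoprime v.1 v.2))
  rw [Nat.card_sum, hcompl, Nat.card_prod, Nat.card_zmod] at h2
  show Nat.card {v : ZMod N × ZMod N // IsCoprime v.1 v.2} + (p ^ k) ^ 2 = N ^ 2
  rw [h2, sq]

/-! ### The Dedekind psi function -/

/-- Indicator of squarefree numbers as an arithmetic function. -/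
def sqfInd : ArithmeticFunction ℕ :=
  ⟨fun n => if Squarefree n then 1 else 0, by simp⟩

theorem sqfInd_apply (n : ℕ) : sqfInd n = if Squarefree n then 1 else 0 := rfl

theorem sqfInd_isMultiplicative : sqfInd.IsMultiplicative := by
  refine ⟨by simp [sqfInd_apply], fun {m n} h => ?_⟩
  simp only [sqfInd_apply, Nat.squarefree_mul h]
  by_cases hm : Squarefree m <;> by_cases hn : Squarefree n <;> simp [hm, hn]

theorem dedekindPsi_eq (N : ℕ) : ModularCurve.dedekindPsi N = (sqfInd * ArithmeticFunction.id) N := by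
  rw [ArithmeticFunction.mul_apply,
    Nat.sum_divisorsAntidiagonal (fun i j => sqfInd i * ArithmeticFunction.id j),
    ModularCurve.dedekindPsi, Finset.sum_filter]
  refine Finset.sum_congr rfl fun d _ => ?_
  rw [sqfInd_apply, ArithmeticFunction.id_apply]
  split_ifs <;> simp

theorem dedekindPsi_mul {m n : ℕ} (h : m.Coprime n) :
    ModularCurve.dedekindPsi (m * n) = ModularCurve.dedekindPsi m * ModularCurve.dedekindPsi n := by
  rw [dedekindPsi_eq, dedekindPsi_eq, dedekindPsi_eq]
  exact (sqfInd_isMultiplicative.mul ArithmeticFunction.isMultiplicative_id).map_mul_of_coprime h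

theorem dedekindPsi_prime_pow {p k : ℕ} (hp : p.Prime) :
    ModularCurve.dedekindPsi (p ^ (k + 1)) = p ^ (k + 1) + p ^ k := by
  rw [ModularCurve.dedekindPsi, Nat.divisors_prime_pow hp, Finset.sum_filter, Finset.sum_map]
  simp only [Function.Embedding.coeFn_mk]
  rw [Finset.sum_range_succ', Finset.sum_range_succ']
  have h0 : Squarefree (p ^ 0) := by simp
  have h1 : Squarefree (p ^ (0 + 1)) := by simpa using hp.squarefree
  have hbig : ∀ i ∈ Finset.range k, (if Squarefree (p ^ (i + 1 + 1)) then p ^ (k + 1) / p ^ (i + 1 + 1) else 0) = 0 := by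
    intro i _
    rw [if_neg]
    rw [Nat.squarefree_pow_iff hp.ne_one (by omega)]
    rintro ⟨-, h⟩
    omega
  rw [Finset.sum_eq_zero hbig, if_pos h0, if_pos h1, zero_add, pow_zero, Nat.div_one, zero_add,
    pow_one, pow_succ, Nat.mul_div_cancel _ hp.pos, add_comm]

theorem card_unimod (N : ℕ) (hN : N ≠ 0) :
    Nat.card (Unimod N) = N.totient * ModularCurve.dedekindPsi N := by
  induction N using Nat.recOnPosPrimePosCoprime with
  | zero => exact absurd rfl hN
  | one =>
    have : Subsingleton (Unimod 1) :=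
      ⟨fun v w => Unimod.ext (Subsingleton.elim _ _) (Subsingleton.elim _ _)⟩
    have : Nonempty (Unimod 1) := ⟨⟨(1, 1), isCoprime_one_left⟩⟩
    rw [Nat.card_unique]
    simp
  | prime_pow p n hp hn =>
    obtain ⟨k, rfl⟩ : ∃ k, n = k + 1 := ⟨n - 1, by omega⟩
    have h := card_unimod_prime_pow (p := p) (k := k) hp
    rw [Nat.totient_prime_pow hp (Nat.succ_pos k), Nat.succ_sub_one, dedekindPsi_prime_pow hp]
    obtain ⟨q, rfl⟩ : ∃ q, p = q + 1 := ⟨p - 1, by have := hp.one_lt; omega⟩
    simp only [Nat.add_sub_cancel]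
    have h3 : (q + 1) ^ k * q * ((q + 1) ^ (k + 1) + (q + 1) ^ k) + ((q + 1) ^ k) ^ 2 =
        ((q + 1) ^ (k + 1)) ^ 2 := by ring
    omega
  | coprime a b ha hb hab iha ihb =>
    rw [card_unimod_mul hab, iha (by omega), ihb (by omega), Nat.totient_mul hab,
      dedekindPsi_mul hab]
    ring

theorem card_P1 (N : ℕ) [NeZero N] : Nat.card (P1 N) = ModularCurve.dedekindPsi N := by
  have h1 := card_unimod_eq N
  rw [card_unimod N (NeZero.ne N), mul_comm] at h1
  exact (Nat.eq_of_mul_eq_mul_right (Nat.totient_pos.mpr (Nat.pos_of_ne_zero (NeZero.ne N))) h1).symm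

theorem card_cosetX_aux (N : ℕ) [NeZero N] :
    Nat.card (SL(2, ℤ) ⧸ Gamma0 N) = ModularCurve.dedekindPsi N := by
  rw [Nat.card_congr (cosetEquivP1 N), card_P1]

end Fermat.Agent.S20
end MergeWrap_S20_Cosets_Count
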